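/-
Programme S33 (ruling R1 = report 1278), brick N2-toric (helper84), seam with N2-cmpall:
**THE BINDER `toric_inf` AND `LocalGeomTate` FROM THE EXISTENTIAL FORM OF CMP.**

helper65's `S33P/Toric65/UnionPow.toric_inf_J1top` and `S33P/Toric65/Plug.localGeomTate_of_toric` take
the statement of CMP in the level-wise form `∀ E y, bcO y = j x → ∀ n, β n (uJ y) = 1`.  For the
bridge `jAll` (helper39) the class `x` need not be rational over the level `E` produced by
`mem_J1top`; the CMP cell (helper38/helper39, N2-cmpall) therefore ENLARGES the level and produces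
the EXISTENTIAL form
  `∀ x, ker x → j x ∈ J1top → ∃ E y, bcO y = j x ∧ ∀ n, β n (uJ y) = 1`.
This file is the twin of helper65's two statements for that form (three-line proofs over
`Toric65.exists_ιTop_eq_of_cmp_pow`):

* `toric_J1top_pow_ex`        : abstract bridge `j : T →+ Atop`, any exponent `m`;
* `toric_inf_J1top_ex`        : the binder `toric_inf` of `Inst3.localGeomTate_of_fields`, verbatim;
* `localGeomTate_of_toric_ex` : `Toric65.localGeomTate_of_toric` with the existential `hcmp`.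
-/
import Mathlib
import Fermat.Agent.S33P.Inst3.Glue
import Fermat.Agent.S33P.Toric65.UnionPow

set_option autoImplicit false
set_option linter.unusedSectionVars false
set_option linter.unusedVariables false
set_option linter.style.haveILetI false
set_option linter.overlappingInstances false
set_option synthInstance.maxHeartbeats 400000
set_option maxHeartbeats 1000000

noncomputable section

namespace Fermat.Agent.S33P.Toric84

open Fermat.Agent.TW.B5.Iface Fermat.Agent.RED.Interface4 Fermat.Agent.T1.HubInst98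
open Fermat.Agent.T1.IntSub47 Fermat.Agent.Jac Fermat.Agent.T1.RedIface75
open Fermat.Agent.T1B.Local66.LocalBase Fermat.Agent.T1B.Local66.Union
open Fermat.Agent.T1B.Local66.Objects Fermat.Agent.T1B.Local66.Assembly
open Fermat.Agent.T1B.Plumb66.Inertia (Ip mem_Ip)
open Fermat.Agent.T1B.Plumb66.OneUnits Fermat.Agent.T1B.Plumb66
open Fermat.Agent.T1B.Bridge54.IpAction Fermat.Agent.T1B.Bridge54.IpInst
open Fermat.Agent.T1B.Bridge54.IpUnion
open Fermat.Agent.ES.P36.InertField27 (InertFixed)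
open Fermat.Agent.T1.CechFormal70 Fermat.Agent.T1B.Toric11 Fermat.Agent.T1B.ToricGal65
open Fermat.Agent.T1B.Union81 Fermat.Agent.T1B.GalInput65 Fermat.Agent.T1B.Toric50.Assemble
open Fermat.Agent.S33P.Geo99 Fermat.Agent.S33P.Inst3 Fermat.Agent.S33P.Toric65
open ModularCurve

variable {p : ℕ} [Fact p.Prime] {K : IntermediateField ℚ Qbar} [FiniteDimensional ℚ K]

attribute [local instance] algWKbar

variable {B0 B1 B01 : Type} [CommRing B0] [CommRing B1] [CommRing B01]
  [Algebra (Wb p K) B0] [Algebra (Wb p K) B1] [Algebra (Wb p K) B01] [Algebra B0 B01]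
  [Algebra B1 B01] [IsScalarTower (Wb p K) B0 B01] [IsScalarTower (Wb p K) B1 B01]

section Toric

variable {c0 : TwoChart (Wb p K) B0 B1 B01}
  {g : ℕ} {D : CechData (Wb p K) B0 B1 B01 g}
  {hρ0 : ∀ x, D.ρ0 x = algebraMap B0 B01 x} {hρ1 : ∀ x, D.ρ1 x = algebraMap B1 B01 x}
  {G : NLevel p K → Type} [∀ L, Group (G L)] {q r : ℕ} {Bt : NLevel p K → ℕ → Type}
  [∀ L n, CommGroup (Bt L n)]
  [∀ L, MulDistribMulAction (G L) (J1 c0 ((levelFamilyN p K).O L))]
  [∀ L n, MulDistribMulAction (G L)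
    (Jn D (IsLocalRing.maximalIdeal ((levelFamilyN p K).O L)) n)]
  [∀ L n, MulDistribMulAction (G L)
    (Tn r (IsLocalRing.maximalIdeal ((levelFamilyN p K).O L)) n)]
  [∀ L, MulDistribMulAction (G L) (Tinf r (IsLocalRing.maximalIdeal ((levelFamilyN p K).O L)))]
  (I : ∀ L, TowerInput c0 D hρ0 hρ1 ((levelFamilyN p K).O L) (G L) q r (Bt L))
  {good : ∀ (O : Type) [CommRing O] [IsDomain O] [IsDiscreteValuationRing O]
    [Algebra (Wb p K) O], Prop}
  (F : TorFam r D good) (hO : ∀ L, good ((levelFamilyN p K).O L))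
  (hI : ∀ L n, (I L).ι n = F.ι ((levelFamilyN p K).O L) (hO L) n)
  (P00 : ∀ E : NLevel p K, Subgroup (PicO c0 E)) (hPP : Compatible c0 P00)

/-- **The binder `toric` at an arbitrary exponent `m`, from the EXISTENTIAL form of CMP**, for an
abstract bridge `j : T →+ Atop p K c0` (twin of `Toric65.toric_J1top_pow`): an `m`-torsion element
`x` of `T` with `ker x` and `j x ∈ J1top` is `ιTop z` for a family `z` of `m`-th roots of unity. -/
theorem toric_J1top_pow_ex {T : Type*} [AddCommGroup T] (j : T →+ Atop p K c0) (ker : T → Prop)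
    (hinjE : ∀ E : NLevel p K, Function.Injective (bcE c0 E))
    (hext : ∀ E : NLevel p K, ∀ x ∈ J1Fam c0 E, bcOE c0 E x = 1 → x = 1)
    (hcmp : ∀ x : T, ker x → j x ∈ J1top c0 P00 hPP →
      ∃ (E : NLevel p K) (y : J1 c0 ((levelFamilyN p K).O E)),
        Additive.ofMul (bcO c0 E (y : PicX c0 ((levelFamilyN p K).O E))) = j x ∧
          ∀ n, (I E).β n (uJ c0 D hρ0 hρ1 ((levelFamilyN p K).O E) n y) = 1)
    (m : ℕ) (x : T) (hmx : m • x = 0) (hx : ker x) (hxJ : j x ∈ J1top c0 P00 hPP) :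
    ∃ z : Fin r → ↥(OneUnits.oneUnits p), (∀ e, z e ^ m = 1) ∧ ιTop I F hO hI z = j x := by
  have hma : m • j x = 0 := by rw [← map_nsmul, hmx, map_zero]
  exact exists_ιTop_eq_of_cmp_pow I F hO hI m (j x) hma hinjE hext (hcmp x hx hxJ)

/-- **The binder `toric_inf` of `S33P.Inst3.localGeomTate_of_fields`, verbatim**, with
`E := Fin r`, `ιT := ιTop I F hO hI`, from the EXISTENTIAL statement of CMP on the `p`-power torsion
(twin of `Toric65.toric_inf_J1top`). -/
theorem toric_inf_J1top_ex {N M' : ℕ} [NeZero N] [NeZero M'] {π₁ π₂ : JZero N →+ JZero M'}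
    (j : ↥(torsPinf N p) →+ Atop p K c0)
    (hinjE : ∀ E : NLevel p K, Function.Injective (bcE c0 E))
    (hext : ∀ E : NLevel p K, ∀ x ∈ J1Fam c0 E, bcOE c0 E x = 1 → x = 1)
    (hcmp : ∀ x : ↥(torsPinf N p), π₁ (x : JZero N) = 0 ∧ π₂ (x : JZero N) = 0 →
      j x ∈ J1top c0 P00 hPP →
      ∃ (E : NLevel p K) (y : J1 c0 ((levelFamilyN p K).O E)),
        Additive.ofMul (bcO c0 E (y : PicX c0 ((levelFamilyN p K).O E))) = j x ∧
          ∀ n, (I E).β n (uJ c0 D hρ0 hρ1 ((levelFamilyN p K).O E) n y) = 1) :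
    ∀ (x : JZero N) (hx : x ∈ torsPinf N p) (n : ℕ), (p ^ n) • x = 0 →
      π₁ x = 0 → π₂ x = 0 → j ⟨x, hx⟩ ∈ J1top c0 P00 hPP →
      ∃ z : Fin r → ↥(OneUnits.oneUnits p), (∀ e, z e ^ (p ^ n) = 1) ∧
        ιTop I F hO hI z = j ⟨x, hx⟩ := by
  intro x hx n hn h1 h2 hxJ
  exact toric_J1top_pow_ex I F hO hI P00 hPP j
    (fun x : ↥(torsPinf N p) => π₁ (x : JZero N) = 0 ∧ π₂ (x : JZero N) = 0) hinjE hext hcmp
    (p ^ n) ⟨x, hx⟩ (Subtype.ext hn) ⟨h1, h2⟩ hxJ

end Toric

section Plug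

variable (c0 : TwoChart (Wb p K) B0 B1 B01)
  {N M' : ℕ} [NeZero N] [NeZero M'] {π₁ π₂ : JZero N →+ JZero M'}
  {g : ℕ} {D : CechData (Wb p K) B0 B1 B01 g}
  {hρ0 : ∀ x, D.ρ0 x = algebraMap B0 B01 x} {hρ1 : ∀ x, D.ρ1 x = algebraMap B1 B01 x}
  {G : NLevel p K → Type} [∀ L, Group (G L)] {q r : ℕ} {Bt : NLevel p K → ℕ → Type}
  [∀ L n, CommGroup (Bt L n)]
  [∀ L, MulDistribMulAction (G L) (J1 c0 ((levelFamilyN p K).O L))]
  [∀ L n, MulDistribMulAction (G L)
    (Jn D (IsLocalRing.maximalIdeal ((levelFamilyN p K).O L)) n)]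
  [∀ L n, MulDistribMulAction (G L)
    (Tn r (IsLocalRing.maximalIdeal ((levelFamilyN p K).O L)) n)]
  [∀ L, MulDistribMulAction (G L) (Tinf r (IsLocalRing.maximalIdeal ((levelFamilyN p K).O L)))]

set_option linter.checkUnivs false in
/-- **`LocalGeomTate` from the J-bridge, NODE, the toric family of T1B and the EXISTENTIAL form of
CMP** (twin of `Toric65.localGeomTate_of_toric`). -/
def localGeomTate_of_toric_ex (hK : InertFixed (padicPlace p) K)
    (P00 : ∀ E : NLevel p K, Subgroup (PicO c0 E)) (hPP : Compatible c0 P00)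
    (hJP : ∀ E, J1Fam c0 E ≤ P00 E)
    -- J-BRIDGE on the `p`-power torsion
    (j : ↥(torsPinf N p) →+ Atop p K c0) (j_inj : Function.Injective j)
    (j_res : letI := actTop c0 hK
      ∀ (τ : ↥(Ip p)) (x : JZero N) (hx : x ∈ torsPinf N p)
        (hx' : localGaloisToGlobal p (τ : Gp p) • x ∈ torsPinf N p), j ⟨_, hx'⟩ = τ • j ⟨x, hx⟩)
    (j_Pt : ∀ x, j x ∈ PtTop c0)
    -- NODE
    (sub_mem_J0 : letI := actTop c0 hK
      ∀ τ : ↥(Ip p), ∀ x ∈ PtTop c0, τ • x - x ∈ J0top c0 P00 hPP)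
    -- TORIC: the family of tower inputs of T1B (any exponent `q`) and its natural toric family
    (I : ∀ L, TowerInput c0 D hρ0 hρ1 ((levelFamilyN p K).O L) (G L) q r (Bt L))
    {good : ∀ (O : Type) [CommRing O] [IsDomain O] [IsDiscreteValuationRing O]
      [Algebra (Wb p K) O], Prop}
    (F : TorFam r D good) (hO : ∀ L, good ((levelFamilyN p K).O L))
    (hI : ∀ L n, (I L).ι n = F.ι ((levelFamilyN p K).O L) (hO L) n)
    -- CMP on the `p`-power torsion, existential form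
    (hinjE : ∀ E : NLevel p K, Function.Injective (bcE c0 E))
    (hext : ∀ E : NLevel p K, ∀ x ∈ J1Fam c0 E, bcOE c0 E x = 1 → x = 1)
    (hcmp : ∀ x : ↥(torsPinf N p), π₁ (x : JZero N) = 0 ∧ π₂ (x : JZero N) = 0 →
      j x ∈ J1top c0 P00 hPP →
      ∃ (E : NLevel p K) (y : J1 c0 ((levelFamilyN p K).O E)),
        Additive.ofMul (bcO c0 E (y : PicX c0 ((levelFamilyN p K).O E))) = j x ∧
          ∀ n, (I E).β n (uJ c0 D hρ0 hρ1 ((levelFamilyN p K).O E) n y) = 1) :
    LocalGeomTate.{1, 0} p N M' π₁ π₂ :=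
  localGeomTate_of_fields c0 hK P00 hPP hJP j j_inj j_res j_Pt sub_mem_J0
    (Fin r) (ιTop I F hO hI) (ιTop_mul I F hO hI) (ιTop_smul hK I F hO hI)
    (toric_inf_J1top_ex I F hO hI P00 hPP j hinjE hext hcmp)

end Plug

end Fermat.Agent.S33P.Toric84
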