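/-
Programme S33, brick **N2-toric** (helper84), part 1: the TORIC chain of T1B (`Toric50/Package2`,
`Toric50/Assemble`, `Toric50/Junction`, `Union81/Family`) **for an arbitrary exponent `m`** instead of
the prime `p` of the tower input (in the application `m = p ^ n`).

Nothing new is proved about the geometry: `Package2.K_eq_range` (the formal kernel of the pair of
norms is the image of the toric map) and `toricPoint_injective` are exponent-free; the statements
about `p`-torsion in the T1B files are 3-line corollaries, repeated here for every `m`.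

* `package2_exists_toricPoint_of_pow`, `package2_smul_eq_pow` (abstract package);
* `towerInput_exists_toricPoint_of_pow`, `towerInput_smul_eq_pow` (concrete vocabulary);
* `exists_toricPoint_of_generic_pow` (after the comparison theorem CMP, twin of
  `Toric50.Junction.exists_toricPoint_of_generic`);
* `exists_ιΩ_eq_pow` (on the union over the levels, twin of `Union81.exists_ιΩ_eq`).
-/
import Mathlib
import Fermat.Agent.T1B.Toric50.Junction
import Fermat.Agent.T1B.Union81.Family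

set_option autoImplicit false
set_option linter.unusedSectionVars false
set_option linter.unusedVariables false
set_option linter.style.haveILetI false

open TensorProduct

noncomputable section

namespace Fermat.Agent.S33P.Toric84

open Fermat.Agent.T1B.Toric50

/-! ### The abstract package -/

section Abstract

universe uG uA uT uJ uB uTn

variable {G : Type uG} [Group G] {p : ℕ} (P : Package2.{uG, uA, uT, uJ, uB, uTn} G p)

/-- every `m`-torsion point of the formal kernel is the toric point of an `m`-torsion element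
(any exponent `m`). -/
theorem package2_exists_toricPoint_of_pow (m : ℕ) (y : P.A) (hy : y ∈ P.K) (hym : y ^ m = 1) :
    ∃ w : P.Tinf, w ^ m = 1 ∧ P.toricPoint w = y := by
  have hmem : y ∈ P.toricPoint.range := by rw [← P.K_eq_range]; exact hy
  obtain ⟨w, rfl⟩ := hmem
  refine ⟨w, ?_, rfl⟩
  apply P.toricPoint_injective
  rw [map_pow, hym, map_one]

/-- if `s` acts on the `m`-torsion of `(1 + 𝔪)^r` by the `a`-th power, it acts on the `m`-torsion
of the formal kernel by the `a`-th power. -/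
theorem package2_smul_eq_pow (m a : ℕ) (s : G)
    (hs : ∀ w : P.Tinf, w ^ m = 1 → s • w = w ^ a)
    (y : P.A) (hy : y ∈ P.K) (hym : y ^ m = 1) : s • y = y ^ a := by
  obtain ⟨w, hw, rfl⟩ := package2_exists_toricPoint_of_pow P m y hy hym
  rw [← P.toricPoint_smul, hs w hw, map_pow]

end Abstract

/-! ### The concrete vocabulary (`Toric50/Assemble`) -/

section Concrete

open Fermat.Agent.Jac Fermat.Agent.Jac.BaseChange75
open Fermat.Agent.T1.RedIface75 Fermat.Agent.T1.CechFormal70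
open Fermat.Agent.T1B.Toric11 Fermat.Agent.T1B.Toric50.Assemble
open scoped Fermat.Agent.Jac.BaseChange75

universe u uG

variable {W B0 B1 B01 : Type u} [CommRing W] [CommRing B0] [CommRing B1] [CommRing B01]
  [Algebra W B0] [Algebra W B1] [Algebra W B01]
  [Algebra B0 B01] [Algebra B1 B01] [IsScalarTower W B0 B01] [IsScalarTower W B1 B01]
  {c0 : TwoChart W B0 B1 B01} {g : ℕ} {D : CechData W B0 B1 B01 g}
  {hρ0 : ∀ x, D.ρ0 x = algebraMap B0 B01 x} {hρ1 : ∀ x, D.ρ1 x = algebraMap B1 B01 x}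
  {O : Type u} [CommRing O] [IsDomain O] [IsDiscreteValuationRing O] [Algebra W O]
  {G : Type uG} [Group G] {p r : ℕ} {Bt : ℕ → Type u} [∀ n, CommGroup (Bt n)]
  [MulDistribMulAction G (J1 c0 O)]
  [∀ n, MulDistribMulAction G (Jn D (IsLocalRing.maximalIdeal O) n)]
  [∀ n, MulDistribMulAction G (Tn r (IsLocalRing.maximalIdeal O) n)]
  [MulDistribMulAction G (Tinf r (IsLocalRing.maximalIdeal O))]
  (I : TowerInput c0 D hρ0 hρ1 O G p r Bt)

/-- `TowerInput.exists_toricPoint_of_pow_eq_one` for an arbitrary exponent. -/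
theorem towerInput_exists_toricPoint_of_pow (m : ℕ) (y : J1 c0 O)
    (hy : ∀ n, I.β n (uJ c0 D hρ0 hρ1 O n y) = 1) (hym : y ^ m = 1) :
    ∃ w : Tinf r (IsLocalRing.maximalIdeal O), w ^ m = 1 ∧ I.toricPoint w = y :=
  package2_exists_toricPoint_of_pow I.package2 m y (I.mem_K.2 hy) hym

/-- `TowerInput.toric` for an arbitrary exponent: an operator acting on the `m`-torsion of
`(1 + 𝔪)^r` by the `a`-th power acts so on the `m`-torsion of the formal kernel. -/
theorem towerInput_smul_eq_pow (m a : ℕ) (s : G)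
    (hs : ∀ w : Tinf r (IsLocalRing.maximalIdeal O), w ^ m = 1 → s • w = w ^ a)
    (y : J1 c0 O) (hy : ∀ n, I.β n (uJ c0 D hρ0 hρ1 O n y) = 1) (hym : y ^ m = 1) :
    s • y = y ^ a :=
  package2_smul_eq_pow I.package2 m a s hs y (I.mem_K.2 hy) hym

end Concrete

/-! ### After the comparison theorem (`Toric50/Junction`) -/

section Generic

open Fermat.Agent.Jac Fermat.Agent.Jac.JSmooth85Alg Fermat.Agent.Jac.JGroup85Pic
open Fermat.Agent.Jac.LineOps39 Fermat.Agent.Jac.BaseChange75 Fermat.Agent.T1.Red11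
open Fermat.Agent.T1.RedIface75 Fermat.Agent.T1.CechFormal70
open Fermat.Agent.T1B.Toric11 Fermat.Agent.T1B.Toric50.Assemble
open Fermat.Agent.T1B.ToricGal65 Fermat.Agent.T1B.Toric98 Fermat.Agent.T1B.Toric50.Wrap
open Fermat.Agent.T1B.Toric50.Master Fermat.Agent.T1B.Cmp15 Fermat.Agent.T1B.Toric50.Junction
open scoped Fermat.Agent.Jac.BaseChange75

universe u uG

variable {W B0 B1 B01 : Type u} [CommRing W] [CommRing B0] [CommRing B1] [CommRing B01]
  [Algebra W B0] [Algebra W B1] [Algebra W B01]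
  {B0' B1' B01' : Type u} [CommRing B0'] [CommRing B1'] [CommRing B01']
  [Algebra W B0'] [Algebra W B1'] [Algebra W B01']
  {g g' : ℕ} {D : CechData W B0 B1 B01 g} {D' : CechData W B0' B1' B01' g'}
  [Algebra B0 B01] [Algebra B1 B01] [IsScalarTower W B0 B01] [IsScalarTower W B1 B01]
  {c0 : TwoChart W B0 B1 B01}
  {hρ0 : ∀ x, D.ρ0 x = algebraMap B0 B01 x} {hρ1 : ∀ x, D.ρ1 x = algebraMap B1 B01 x}
  {O : Type u} [CommRing O] [IsDomain O] [IsDiscreteValuationRing O] [Algebra W O]
  {G : Type uG} [Group G] {p r : ℕ}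
  [MulDistribMulAction G (J1 c0 O)]
  [∀ n, MulDistribMulAction G (Jn D (IsLocalRing.maximalIdeal O) n)]
  [∀ n, MulDistribMulAction G (Tn r (IsLocalRing.maximalIdeal O) n)]
  [MulDistribMulAction G (Tinf r (IsLocalRing.maximalIdeal O))]
  (I : TowerInput c0 D hρ0 hρ1 O G p r
    (fun n => Jn D' (IsLocalRing.maximalIdeal O) n × Jn D' (IsLocalRing.maximalIdeal O) n))
  (Sα Sβ : NormSys D D') (hI : ∀ n, I.β n = βn2 Sα Sβ (IsLocalRing.maximalIdeal O) n)

include hI in
/-- **The toric description at one level, any exponent**: an `m`-torsion class of `J̃¹(O)` given by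
a line module with principal norms is a toric point of a family of `m`-th roots of unity. -/
theorem exists_toricPoint_of_generic_pow (m : ℕ) {ϖ : O} (hϖ : Irreducible ϖ)
    (hT : TargetHyp D' O ϖ)
    {M : QC2 O (O ⊗[W] B0) (O ⊗[W] B1) (O ⊗[W] B01)} (hM : M.IsLine)
    (hy : LinePic.mk (c0.baseChange O) M hM ∈ J1 c0 O)
    {Fα Fα' : Type*} [Field Fα] [Field Fα'] {ια : O ⊗[W] B01 →+* Fα}
    {ια' : O ⊗[W] B01' →+* Fα'} {NFα : Fα →* Fα'} {θα : M.N01 →+ Fα} {hα : Fα'}
    (hGα : GenericHyp Sα O M ια ια' NFα θα hα)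
    {Fβ Fβ' : Type*} [Field Fβ] [Field Fβ'] {ιβ : O ⊗[W] B01 →+* Fβ}
    {ιβ' : O ⊗[W] B01' →+* Fβ'} {NFβ : Fβ →* Fβ'} {θβ : M.N01 →+ Fβ} {hβ : Fβ'}
    (hGβ : GenericHyp Sβ O M ιβ ιβ' NFβ θβ hβ)
    (hm : (⟨LinePic.mk (c0.baseChange O) M hM, hy⟩ : J1 c0 O) ^ m = 1) :
    ∃ w : Tinf r (IsLocalRing.maximalIdeal O), w ^ m = 1 ∧
      I.toricPoint w = ⟨LinePic.mk (c0.baseChange O) M hM, hy⟩ :=
  towerInput_exists_toricPoint_of_pow I m _
    (fun n => β_uJ_eq_one_of_generic I Sα Sβ hI hϖ hT hM hy hGα hGβ n) hm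

end Generic

/-! ### On the union over the levels (`Union81/Family`) -/

section Union

open Fermat.Agent.Jac Fermat.Agent.Jac.BaseChange75
open Fermat.Agent.T1.RedIface75 Fermat.Agent.T1.CechFormal70
open Fermat.Agent.T1B.Toric11 Fermat.Agent.T1B.Toric50.Assemble Fermat.Agent.T1B.ToricGal65
open Fermat.Agent.T1B.Union81
open scoped Fermat.Agent.Jac.BaseChange75

universe u v uG

variable {W : Type u} [CommRing W] {Ω : Type u} [CommRing Ω] [Algebra W Ω]
  {Λ : Type v} [Preorder Λ]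
  {B0 B1 B01 : Type u} [CommRing B0] [CommRing B1] [CommRing B01]
  [Algebra W B0] [Algebra W B1] [Algebra W B01] [Algebra B0 B01] [Algebra B1 B01]
  [IsScalarTower W B0 B01] [IsScalarTower W B1 B01]
  {c0 : TwoChart W B0 B1 B01} {g : ℕ} {D : CechData W B0 B1 B01 g}
  {hρ0 : ∀ x, D.ρ0 x = algebraMap B0 B01 x} {hρ1 : ∀ x, D.ρ1 x = algebraMap B1 B01 x}
  [IsDirected Λ (· ≤ ·)] [Nonempty Λ]
  (𝓛 : LevelFamily W Ω Λ) {U : Subgroup Ωˣ} (hU : UnitsFamily 𝓛 U)
  {G : Λ → Type uG} [∀ L, Group (G L)] {p r : ℕ} {Bt : Λ → ℕ → Type u}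
  [∀ L n, CommGroup (Bt L n)]
  [∀ L, MulDistribMulAction (G L) (J1 c0 (𝓛.O L))]
  [∀ L n, MulDistribMulAction (G L) (Jn D (IsLocalRing.maximalIdeal (𝓛.O L)) n)]
  [∀ L n, MulDistribMulAction (G L) (Tn r (IsLocalRing.maximalIdeal (𝓛.O L)) n)]
  [∀ L, MulDistribMulAction (G L) (Tinf r (IsLocalRing.maximalIdeal (𝓛.O L)))]
  (I : ∀ L, TowerInput c0 D hρ0 hρ1 (𝓛.O L) (G L) p r (Bt L))
  {good : ∀ (O : Type u) [CommRing O] [IsDomain O] [IsDiscreteValuationRing O] [Algebra W O], Prop}
  (F : TorFam r D good) (hO : ∀ L, good (𝓛.O L))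
  (hI : ∀ L n, (I L).ι n = F.ι (𝓛.O L) (hO L) n)

/-- **The toric description on the union, any exponent** (twin of `Union81.exists_ιΩ_eq`): an
`m`-torsion class of `Pic X_Ω` which is the image of a class `y ∈ J̃¹(O L)` of the formal kernel at
a level where `J̃¹(O L) → Pic X_Ω` is injective, is `ιΩ z` for a family `z` of `m`-th roots of
unity. -/
theorem exists_ιΩ_eq_pow (m : ℕ) (L : Λ) (hinj : Function.Injective (iΩ (c0 := c0) 𝓛 L))
    (y : J1 c0 (𝓛.O L)) (hy : ∀ n, (I L).β n (uJ c0 D hρ0 hρ1 (𝓛.O L) n y) = 1)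
    (hm : (mapAlg c0 (𝓛.toΩ L) (y : PicX c0 (𝓛.O L))) ^ m = 1) :
    ∃ z : Fin r → U, (∀ k, z k ^ m = 1) ∧
      ιΩ 𝓛 hU I F hO hI z = mapAlg c0 (𝓛.toΩ L) (y : PicX c0 (𝓛.O L)) :=
  (unionData 𝓛 hU I F hO hI).exists_ιT_eq m (fun L => (I L).package2.K)
    (fun L y hy hym => package2_exists_toricPoint_of_pow (I L).package2 m y hy hym)
    L hinj y ((I L).mem_K.2 hy) hm

end Union

end Fermat.Agent.S33P.Toric84
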